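import Fermat.Agent.S56.H536.CycExp

/-!
# S56 / TWP (helper536), part 2: algebra of twisted cocycles

For a twisted cocycle `c` (`IsTwCocycle`):

* `cocycle_one` : `c 1 = 0`;
* `cocycle_eq_of_agree` : `c σ = c τ` when `σ` and `τ` agree on the level of `c`;
* `coboundary_pow` : if `τ` fixes `μ_p` and `c τ = Ad(τ) m - m` then `c (τ ^ j) = Ad(τ ^ j) m - m`;
* `coboundary_of_conj` : if `φ` fixes `μ_p` and `c (g φ g⁻¹) = Ad(g φ g⁻¹) m₀ - m₀` with `tr m₀ = 0`
  then `c φ = Ad(φ) m - m` for some `m` with `tr m = 0`;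
* `coboundary_at_frobenius_of_locTrivAt` : a cocycle which is locally trivial at `q ≡ 1 mod p`
  takes a "coboundary value" at EVERY Frobenius element over `q`.
-/

set_option autoImplicit false
set_option linter.style.haveILetI false

open Polynomial IsLocalRing

noncomputable section

namespace Fermat.Agent.S56.H536

open Fermat.Agent.S56

variable {k : Type} [Field k] (ρbar : ResidualGaloisRep k) (p : ℕ)

theorem rho_mul_rho_inv (σ : GQ) : ρbar.ρ σ * ρbar.ρ σ⁻¹ = 1 := by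
  rw [← map_mul, mul_inv_cancel, map_one]

theorem rho_inv_mul_rho (σ : GQ) : ρbar.ρ σ⁻¹ * ρbar.ρ σ = 1 := by
  rw [← map_mul, inv_mul_cancel, map_one]

/-- Conjugation does not change the trace. -/
theorem trace_conj_eq {E : Type*} [AddCommGroup E] [Module k E] (R R' x : Module.End k E)
    (hR : R * R' = 1) : LinearMap.trace k E (R' * x * R) = LinearMap.trace k E x := by
  rw [LinearMap.trace_mul_comm, ← mul_assoc, hR, one_mul]

/-- The abstract computation behind `coboundary_of_conj`. -/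
theorem conj_algebra {E : Type*} [Ring E] [Algebra k E] (R R' F F' : E)
    (hR' : R' * R = 1) (a : k) (ha : a ≠ 0) (cg cg' cφ m₀ : E)
    (h1 : cg + a • (R * cg' * R') = 0)
    (h2 : cg + a • (R * (cφ + F * cg' * F') * R') = (R * F * R') * m₀ * (R * F' * R') - m₀) :
    cφ = F * (a⁻¹ • (R' * (m₀ + cg) * R)) * F' - a⁻¹ • (R' * (m₀ + cg) * R) := by
  have hRx : ∀ x : E, R' * (R * x) = x := fun x => by rw [← mul_assoc, hR', one_mul]
  have e1 : a • cg' = -(R' * cg * R) := by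
    have h := congrArg (fun x => R' * x * R) h1
    simp only [mul_add, add_mul, mul_smul_comm, smul_mul_assoc, mul_zero, zero_mul] at h
    have e : R' * (R * cg' * R') * R = cg' := by
      rw [mul_assoc R, hRx, mul_assoc, hR', mul_one]
    rw [e] at h
    exact eq_neg_of_add_eq_zero_right h
  have e2 : R' * cg * R + (a • cφ + F * (a • cg') * F') =
      F * (R' * m₀ * R) * F' - R' * m₀ * R := by
    have h := congrArg (fun x => R' * x * R) h2
    simp only [mul_add, add_mul, mul_sub, sub_mul, mul_smul_comm, smul_mul_assoc, smul_add] at h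
    have e : R' * (R * cφ * R') * R = cφ := by
      rw [mul_assoc R, hRx, mul_assoc, hR', mul_one]
    have e' : R' * (R * (F * cg' * F') * R') * R = F * cg' * F' := by
      rw [mul_assoc R, hRx, mul_assoc, hR', mul_one]
    have e'' : R' * (R * F * R' * m₀ * (R * F' * R')) * R = F * (R' * m₀ * R) * F' := by
      have : R * F * R' * m₀ * (R * F' * R') = R * (F * (R' * m₀ * R) * F' * R') := by
        simp only [mul_assoc]
      rw [this, hRx, mul_assoc, hR', mul_one]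
    rw [e, e', e''] at h
    rw [mul_smul_comm, smul_mul_assoc]
    exact h
  rw [e1] at e2
  have e3 : a • cφ = F * (R' * (m₀ + cg) * R) * F' - R' * (m₀ + cg) * R := by
    have : a • cφ = F * (R' * m₀ * R) * F' - R' * m₀ * R - R' * cg * R
        - F * (-(R' * cg * R)) * F' := by
      rw [← e2]; abel
    rw [this]
    simp only [mul_add, add_mul, mul_neg, neg_mul]
    abel
  have e4 : cφ = a⁻¹ • (a • cφ) := by rw [smul_smul, inv_mul_cancel₀ ha, one_smul]
  rw [e4, e3, smul_sub, mul_smul_comm, smul_mul_assoc]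

variable {ρbar p}

/-- `c 1 = 0`. -/
theorem cocycle_one {c : GQ → Module.End k ρbar.V} (hc : IsTwCocycle ρbar p c) : c 1 = 0 := by
  have h := hc.map_mul 1 1 1 (isCycExp_one_one p)
  simp only [twAd, mul_one, Nat.cast_one, one_smul, map_one, inv_one, one_mul] at h
  exact left_eq_add.mp h

/-- `c` depends only on the restriction to its level. -/
theorem cocycle_eq_of_agree {c : GQ → Module.End k ρbar.V} (hc : IsTwCocycle ρbar p c) :
    ∃ L : IntermediateField ℚ Qb, FiniteDimensional ℚ L ∧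
      ∀ σ τ : GQ, (∀ x ∈ L, σ x = τ x) → c σ = c τ := by
  obtain ⟨L, hL, h⟩ := hc.level
  refine ⟨L, hL, fun σ τ hστ => ?_⟩
  have h1 : ∀ x ∈ L, (τ⁻¹ * σ) x = x := by
    intro x hx
    rw [AlgEquiv.mul_apply, hστ x hx]
    exact τ.symm_apply_apply x
  have h2 := h τ (τ⁻¹ * σ) h1
  rwa [mul_inv_cancel_left] at h2

/-- If `τ` fixes `μ_p` and `c τ` is the coboundary value of `m`, so is `c (τ ^ j)`. -/
theorem coboundary_pow {c : GQ → Module.End k ρbar.V} (hc : IsTwCocycle ρbar p c) (τ : GQ)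
    (hτ : IsCycExp p τ 1) (m : Module.End k ρbar.V)
    (h : c τ = ρbar.ρ τ * m * ρbar.ρ τ⁻¹ - m) (j : ℕ) :
    c (τ ^ j) = ρbar.ρ (τ ^ j) * m * ρbar.ρ (τ ^ j)⁻¹ - m := by
  induction j with
  | zero =>
    rw [pow_zero, cocycle_one hc, inv_one, map_one, one_mul, mul_one, sub_self]
  | succ j ih =>
    rw [pow_succ', hc.map_mul τ (τ ^ j) 1 hτ, ih, h, mul_inv_rev, map_mul, map_mul]
    simp only [twAd, Nat.cast_one, one_smul, mul_sub, sub_mul, mul_assoc]
    abel

/-- Conjugation: a coboundary value at `g φ g⁻¹` gives a coboundary value at `φ`. -/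
theorem coboundary_of_conj [CharP k p] (hp : p.Prime) {c : GQ → Module.End k ρbar.V}
    (hc : IsTwCocycle ρbar p c) (g φ : GQ) (hφ : IsCycExp p φ 1) (m₀ : Module.End k ρbar.V)
    (hm₀ : LinearMap.trace k ρbar.V m₀ = 0)
    (h : c (g * φ * g⁻¹) = ρbar.ρ (g * φ * g⁻¹) * m₀ * ρbar.ρ (g * φ * g⁻¹)⁻¹ - m₀) :
    ∃ m : Module.End k ρbar.V, LinearMap.trace k ρbar.V m = 0 ∧
      c φ = ρbar.ρ φ * m * ρbar.ρ φ⁻¹ - m := by
  obtain ⟨a, ha⟩ := exists_isCycExp p hp g
  have ha0 : (a : k) ≠ 0 := isCycExp_natCast_ne_zero p hp ha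
  have h1 : c g + (a : k) • (ρbar.ρ g * c g⁻¹ * ρbar.ρ g⁻¹) = 0 := by
    have := hc.map_mul g g⁻¹ a ha
    rw [mul_inv_cancel, cocycle_one hc] at this
    exact this.symm
  have h2 : c g + (a : k) • (ρbar.ρ g * (c φ + ρbar.ρ φ * c g⁻¹ * ρbar.ρ φ⁻¹) * ρbar.ρ g⁻¹) =
      (ρbar.ρ g * ρbar.ρ φ * ρbar.ρ g⁻¹) * m₀ * (ρbar.ρ g * ρbar.ρ φ⁻¹ * ρbar.ρ g⁻¹) - m₀ := by
    have e1 := hc.map_mul g (φ * g⁻¹) a ha
    have e2 := hc.map_mul φ g⁻¹ 1 hφ
    simp only [twAd, Nat.cast_one, one_smul] at e1 e2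
    rw [e2, ← mul_assoc] at e1
    rw [← e1, h]
    have e3 : (g * φ * g⁻¹)⁻¹ = g * φ⁻¹ * g⁻¹ := by group
    rw [e3, map_mul, map_mul, map_mul, map_mul]
  refine ⟨(a : k)⁻¹ • (ρbar.ρ g⁻¹ * (m₀ + c g) * ρbar.ρ g), ?_, ?_⟩
  · rw [map_smul, trace_conj_eq _ _ _ (rho_mul_rho_inv ρbar g), map_add, hm₀,
      hc.trace_eq_zero, add_zero, smul_zero]
  · exact conj_algebra (ρbar.ρ g) (ρbar.ρ g⁻¹) (ρbar.ρ φ) (ρbar.ρ φ⁻¹)
      (rho_inv_mul_rho ρbar g) (a : k) ha0 (c g) (c g⁻¹) (c φ) m₀ h1 h2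

/-- **TWP2.**  If the cocycle `c` is locally trivial at the prime `q ≠ p`, `q ≡ 1 mod p`, then
its value at EVERY Frobenius element over `q` is a coboundary value. -/
theorem coboundary_at_frobenius_of_locTrivAt [CharP k p] (hp : p.Prime)
    {c : GQ → Module.End k ρbar.V} (hc : IsTwCocycle ρbar p c) {q : ℕ} (hq : q.Prime)
    (hloc : LocTrivAt ρbar p q c) {A : ValuationSubring Qb} (hA : A.LiesOverPrime q) {τ : GQ}
    (hτ : A.IsFrobeniusAt τ q) (hτ1 : IsCycExp p τ 1) :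
    ∃ m : Module.End k ρbar.V, LinearMap.trace k ρbar.V m = 0 ∧
      c τ = ρbar.ρ τ * m * ρbar.ρ τ⁻¹ - m := by
  obtain ⟨P, hP, m₀, hm₀, hcob⟩ := hloc
  obtain ⟨g, hg⟩ := Fermat.Agent.Lib.Cheb.H476.exists_smul_eq hq hA hP
  have hmem : g * τ * g⁻¹ ∈ P.decompositionSubgroup ℚ := by
    have := Fermat.Agent.Lib.Cheb.H476.conj_mem_decomposition g hτ.mem_decompositionSubgroup
    rwa [hg] at this
  have h := hcob _ hmem 1 (isCycExp_one_conj p hτ1 g)
  simp only [twAd, Nat.cast_one, one_smul] at h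
  exact coboundary_of_conj hp hc g τ hτ1 m₀ hm₀ h

end Fermat.Agent.S56.H536
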