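import Fermat.Agent.S56.Spec
import Fermat.Agent.Lib.Cheb.H476.FrobConj
import Fermat.Agent.S55.H414.CycloPow

/-!
# S56 / TWP (helper536), part 1: cyclotomic exponents

Elementary facts about `IsCycExp p σ a` (`σ μ = μ ^ a` on `μ_p`):

* `exists_isCycExp` : every `σ` has an exponent;
* `isCycExp_not_dvd`, `isCycExp_natCast_ne_zero` : exponents are prime to `p`, hence invertible
  in a field of characteristic `p`;
* `frobenius_apply_root` : a Frobenius element over `q ≠ p` raises `p^m`-th roots of unity to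
  the `q`-th power;
* `pow_dvd_sub_one_of_frobenius_fixes` : if it fixes them, then `p ^ m ∣ q - 1`;
* `isCycExp_one_conj` : conjugates of elements fixing `μ_p` fix `μ_p`.
-/

set_option autoImplicit false
set_option linter.style.haveILetI false

open Polynomial IsLocalRing

noncomputable section

namespace Fermat.Agent.S56.H536

open Fermat.Agent.S56

/-- The trivial element has cyclotomic exponent `1`. -/
theorem isCycExp_one_one (p : ℕ) : IsCycExp p (1 : GQ) 1 := by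
  intro μ _
  rw [pow_one]
  rfl

/-- `σ` fixes the `p`-th roots of unity iff `1` is a cyclotomic exponent. -/
theorem isCycExp_one_of_fixes (p : ℕ) (σ : GQ) (h : ∀ μ : Qb, μ ^ p = 1 → σ μ = μ) :
    IsCycExp p σ 1 := by
  intro μ hμ
  rw [pow_one]
  exact h μ hμ

/-- Every element of `Gal(ℚ̄/ℚ)` has a cyclotomic exponent. -/
theorem exists_isCycExp (p : ℕ) (hp : p.Prime) (σ : GQ) : ∃ a : ℕ, IsCycExp p σ a := by
  haveI : NeZero p := ⟨hp.ne_zero⟩
  have hζ := Fermat.Agent.S55.H414.zetaBar_spec p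
  have h1 : (σ (Fermat.Agent.S55.H414.zetaBar p)) ^ p = 1 := by
    rw [← map_pow, hζ.pow_eq_one, map_one]
  obtain ⟨a, -, ha⟩ := hζ.eq_pow_of_pow_eq_one h1
  refine ⟨a, fun μ hμ => ?_⟩
  obtain ⟨i, -, hi⟩ := hζ.eq_pow_of_pow_eq_one hμ
  rw [← hi, map_pow, ← ha, ← pow_mul, ← pow_mul, mul_comm]

/-- A cyclotomic exponent is prime to `p`. -/
theorem isCycExp_not_dvd (p : ℕ) (hp : p.Prime) {σ : GQ} {a : ℕ} (h : IsCycExp p σ a) :
    ¬ p ∣ a := by
  haveI : NeZero p := ⟨hp.ne_zero⟩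
  have hζ := Fermat.Agent.S55.H414.zetaBar_spec p
  rintro ⟨b, rfl⟩
  have h1 := h _ hζ.pow_eq_one
  rw [pow_mul, hζ.pow_eq_one, one_pow] at h1
  have h2 : Fermat.Agent.S55.H414.zetaBar p = 1 :=
    σ.injective (h1.trans (map_one σ).symm)
  exact hζ.ne_one hp.one_lt h2

/-- A cyclotomic exponent is nonzero in a field of characteristic `p`. -/
theorem isCycExp_natCast_ne_zero (p : ℕ) (hp : p.Prime) {k : Type*} [Field k] [CharP k p]
    {σ : GQ} {a : ℕ} (h : IsCycExp p σ a) : (a : k) ≠ 0 := by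
  rw [Ne, CharP.cast_eq_zero_iff k p]
  exact isCycExp_not_dvd p hp h

/-- A Frobenius element over `q ≠ p` raises `p^m`-th roots of unity to the `q`-th power. -/
theorem frobenius_apply_root {p q : ℕ} (hp : p.Prime) (hq : q.Prime) (hqp : q ≠ p)
    {A : ValuationSubring Qb} (hA : A.LiesOverPrime q) {φ : GQ} (hφ : A.IsFrobeniusAt φ q)
    (m : ℕ) {μ : Qb} (hμ : μ ^ p ^ m = 1) : φ μ = μ ^ q := by
  have hv : A.valuation (p : Qb) = 1 := Fermat.Agent.S55.Bridge.val_prime_eq_one hA hq hp hqp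
  have hv' : A.valuation ((p ^ m : ℕ) : Qb) = 1 := by
    rw [Nat.cast_pow, map_pow, hv, one_pow]
  exact Fermat.Agent.S55.H414.IsFrobeniusAt_apply_root hφ (pow_ne_zero m hp.ne_zero) hv' hμ

/-- If a Frobenius element over `q ≠ p` fixes the `p^m`-th roots of unity then
`q ≡ 1 mod p^m`. -/
theorem pow_dvd_sub_one_of_frobenius_fixes {p q : ℕ} (hp : p.Prime) (hq : q.Prime)
    (hqp : q ≠ p) {A : ValuationSubring Qb} (hA : A.LiesOverPrime q) {φ : GQ}
    (hφ : A.IsFrobeniusAt φ q) (m : ℕ) (hfix : ∀ μ : Qb, μ ^ p ^ m = 1 → φ μ = μ) :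
    p ^ m ∣ q - 1 := by
  haveI : NeZero (p ^ m) := ⟨pow_ne_zero m hp.ne_zero⟩
  have hζ := Fermat.Agent.S55.H414.zetaBar_spec (p ^ m)
  have h1 := frobenius_apply_root hp hq hqp hA hφ m hζ.pow_eq_one
  rw [hfix _ hζ.pow_eq_one] at h1
  apply hζ.dvd_of_pow_eq_one
  have hq1 : q = (q - 1) + 1 := (Nat.sub_add_cancel hq.one_lt.le).symm
  have hne : Fermat.Agent.S55.H414.zetaBar (p ^ m) ≠ 0 := hζ.ne_zero (NeZero.ne _)
  have h2 : Fermat.Agent.S55.H414.zetaBar (p ^ m) ^ (q - 1) *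
      Fermat.Agent.S55.H414.zetaBar (p ^ m) = 1 * Fermat.Agent.S55.H414.zetaBar (p ^ m) := by
    rw [← pow_succ, ← hq1, one_mul]
    exact h1.symm
  exact mul_right_cancel₀ hne h2

/-- Powers of an element fixing `x` fix `x`. -/
theorem pow_apply_eq_of_apply_eq (σ : GQ) {x : Qb} (h : σ x = x) (j : ℕ) : (σ ^ j) x = x := by
  induction j with
  | zero => rfl
  | succ j ih => rw [pow_succ, AlgEquiv.mul_apply, h, ih]

/-- A `p`-th root of unity is a `p^(n+1)`-th root of unity. -/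
theorem pow_pow_succ_eq_one_of_pow_eq_one {p : ℕ} (n : ℕ) {μ : Qb} (hμ : μ ^ p = 1) :
    μ ^ p ^ (n + 1) = 1 := by
  rw [pow_succ', pow_mul, hμ, one_pow]

/-- Conjugates of elements fixing `μ_p` fix `μ_p`. -/
theorem isCycExp_one_conj (p : ℕ) {τ : GQ} (hτ : IsCycExp p τ 1) (g : GQ) :
    IsCycExp p (g * τ * g⁻¹) 1 := by
  intro μ hμ
  rw [pow_one]
  have h1 : (g⁻¹ μ) ^ p = 1 := by rw [← map_pow, hμ, map_one]
  have h2 := hτ _ h1
  rw [pow_one] at h2
  show g (τ (g⁻¹ μ)) = μ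
  rw [h2]
  exact g.apply_symm_apply μ

/-- Every `N`-th root of unity lies in `ℚ(ζ_N)`. -/
theorem mem_cycloLevel_of_pow_eq_one (N : ℕ) [NeZero N] {μ : Qb} (hμ : μ ^ N = 1) :
    μ ∈ Fermat.Agent.S55.H414.cycloLevel N := by
  obtain ⟨i, -, hi⟩ := (Fermat.Agent.S55.H414.zetaBar_spec N).eq_pow_of_pow_eq_one hμ
  rw [← hi]
  exact pow_mem (Fermat.Agent.S55.H414.zetaBar_mem_cycloLevel N) i

/-- The residue field of `𝒪` has characteristic `p` when `p ∈ 𝔪`. -/
theorem charP_residueField (𝒪 : Type) [CommRing 𝒪] [IsLocalRing 𝒪] (p : ℕ) (hp : p.Prime)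
    (hp𝒪 : (p : 𝒪) ∈ maximalIdeal 𝒪) : CharP (ResidueField 𝒪) p := by
  have h0 : (p : ResidueField 𝒪) = 0 := by
    have := (IsLocalRing.residue_eq_zero_iff (p : 𝒪)).mpr hp𝒪
    rwa [map_natCast] at this
  exact (CharP.charP_iff_prime_eq_zero hp).mpr h0
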