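import Fermat.Agent.S56.H536.Cocycle

/-!
# S56 / TWP (helper536), part 3: one Taylor–Wiles prime (TWP1 + TWP3)

* `IsGoodPrime ρbar p n S q` : the conditions on the primes `qv i` in `TWPrimesStatement`;
* `distinct_of_pow` : if `f = g ^ k`, `g = f ^ j` and `g` has distinct eigenvalues then so has `f`;
* `exists_good_prime_of_element` : from `σ` fixing `μ_{p^{n+1}}` with distinct eigenvalues and
  Frobenius division: a good prime `q ∉ T` with a Frobenius `τ` whose power `τ ^ j` agrees with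
  `σ` on a prescribed level;
* `exists_good_prime_of_cocycle` : moreover `c τ` is not a coboundary value, for a cocycle `c`
  which is not a coboundary (uses `TWElementStatement`).
-/

set_option autoImplicit false
set_option linter.style.haveILetI false

open Polynomial IsLocalRing

noncomputable section

namespace Fermat.Agent.S56.H536

open Fermat.Agent.S56

/-- The conditions imposed on a Taylor–Wiles prime in `TWPrimesStatement`. -/
def IsGoodPrime {k : Type} [Field k] (ρbar : ResidualGaloisRep k) (p n : ℕ) (S : Finset ℕ)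
    (q : ℕ) : Prop :=
  (q.Prime ∧ q ∉ S ∧ p ^ (n + 1) ∣ q - 1) ∧
    ∀ P : ValuationSubring Qb, P.LiesOverPrime q → ∀ φ : GQ, P.IsFrobeniusAt φ q →
      ∃ α β : k, α ≠ β ∧ LinearMap.charpoly (ρbar.ρ φ) = (X - C α) * (X - C β)

/-- If `f` and `g` are powers of each other and `g` has distinct eigenvalues `α ≠ β`, then any
splitting of the characteristic polynomial of `f` has distinct roots. -/
theorem distinct_of_pow {k : Type} [Field k] {V : Type} [AddCommGroup V] [Module k V]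
    [Module.Finite k V] (f g : Module.End k V) (i j : ℕ) (hf : f = g ^ i) (hg : g = f ^ j)
    {α β : k} (hαβ : α ≠ β) (hcg : LinearMap.charpoly g = (X - C α) * (X - C β))
    {α' β' : k} (hcf : LinearMap.charpoly f = (X - C α') * (X - C β')) : α' ≠ β' := by
  -- eigenvectors of `g`
  have hrα : (LinearMap.charpoly g).IsRoot α := by
    rw [hcg, IsRoot, eval_mul, eval_sub, eval_X, eval_C, sub_self, zero_mul]
  have hrβ : (LinearMap.charpoly g).IsRoot β := by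
    rw [hcg, IsRoot, eval_mul, eval_sub, eval_X, eval_C, eval_sub, eval_X, eval_C, sub_self,
      mul_zero]
  obtain ⟨v, hv⟩ := ((Module.End.hasEigenvalue_iff_isRoot_charpoly g α).mpr hrα).exists_hasEigenvector
  obtain ⟨w, hw⟩ := ((Module.End.hasEigenvalue_iff_isRoot_charpoly g β).mpr hrβ).exists_hasEigenvector
  have hgv : ∀ m : ℕ, (g ^ m) v = α ^ m • v := fun m => hv.pow_apply m
  have hgw : ∀ m : ℕ, (g ^ m) w = β ^ m • w := fun m => hw.pow_apply m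
  have hfv : f v = α ^ i • v := by rw [hf, hgv]
  have hfw : f w = β ^ i • w := by rw [hf, hgw]
  have hfv' : ∀ m : ℕ, (f ^ m) v = (α ^ i) ^ m • v := by
    intro m
    induction m with
    | zero => simp
    | succ m ih => rw [pow_succ, Module.End.mul_apply, hfv, map_smul, ih, smul_smul, pow_succ']
  have hfw' : ∀ m : ℕ, (f ^ m) w = (β ^ i) ^ m • w := by
    intro m
    induction m with
    | zero => simp
    | succ m ih => rw [pow_succ, Module.End.mul_apply, hfw, map_smul, ih, smul_smul, pow_succ']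
  -- `α = (α ^ i) ^ j`, `β = (β ^ i) ^ j`
  have hα : α = (α ^ i) ^ j := by
    have h1 : g v = α • v := hv.apply_eq_smul
    have h2 : g v = (α ^ i) ^ j • v := by rw [hg]; exact hfv' j
    rw [h1] at h2
    exact smul_left_injective k hv.2 h2
  have hβ : β = (β ^ i) ^ j := by
    have h1 : g w = β • w := hw.apply_eq_smul
    have h2 : g w = (β ^ i) ^ j • w := by rw [hg]; exact hfw' j
    rw [h1] at h2
    exact smul_left_injective k hw.2 h2
  -- `α ^ i` and `β ^ i` are roots of the characteristic polynomial of `f`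
  have hfα : f.HasEigenvalue (α ^ i) :=
    Module.End.hasEigenvalue_of_hasEigenvector
      ⟨Module.End.mem_eigenspace_iff.mpr hfv, hv.2⟩
  have hfβ : f.HasEigenvalue (β ^ i) :=
    Module.End.hasEigenvalue_of_hasEigenvector
      ⟨Module.End.mem_eigenspace_iff.mpr hfw, hw.2⟩
  have h1 := (Module.End.hasEigenvalue_iff_isRoot_charpoly f _).mp hfα
  have h2 := (Module.End.hasEigenvalue_iff_isRoot_charpoly f _).mp hfβ
  intro heq
  rw [hcf, heq, IsRoot, eval_mul, eval_sub, eval_X, eval_C, mul_self_eq_zero, sub_eq_zero]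
    at h1 h2
  apply hαβ
  rw [hα, hβ, h1, h2]

section Key

variable {k : Type} [Field k] {ρbar : ResidualGaloisRep k}

/-- `ρ̄` depends only on the restriction to its level. -/
theorem rho_eq_of_agree (ρbar : ResidualGaloisRep k) :
    ∃ L : IntermediateField ℚ Qb, FiniteDimensional ℚ L ∧
      ∀ σ τ : GQ, (∀ x ∈ L, σ x = τ x) → ρbar.ρ σ = ρbar.ρ τ := by
  obtain ⟨L, hL, h⟩ := ρbar.factorsThroughFiniteLevel
  refine ⟨L, hL, fun σ τ hστ => ?_⟩
  have h1 : ∀ x ∈ L, (τ⁻¹ * σ) x = x := by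
    intro x hx
    rw [AlgEquiv.mul_apply, hστ x hx]
    exact τ.symm_apply_apply x
  have h2 := h (τ⁻¹ * σ) h1
  have h3 : ρbar.ρ σ = ρbar.ρ τ * ρbar.ρ (τ⁻¹ * σ) := by
    rw [← map_mul, mul_inv_cancel_left]
  rw [h3, h2, mul_one]

/-- Frobenius division for an element `σ` fixing `μ_{p^{n+1}}` with distinct eigenvalues. -/
theorem exists_good_prime_of_element
    (hFD : Fermat.Agent.Lib.Cheb.Spec.FrobeniusDivisionStatement) {p : ℕ} (hp : p.Prime)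
    (hsplit : ∀ σ : GQ, ∃ α β : k, LinearMap.charpoly (ρbar.ρ σ) = (X - C α) * (X - C β))
    (S : Finset ℕ) (n : ℕ) (T : Finset ℕ) (σ : GQ)
    (hσfix : ∀ μ : Qb, μ ^ p ^ (n + 1) = 1 → σ μ = μ)
    (hσ : ∃ α β : k, α ≠ β ∧ LinearMap.charpoly (ρbar.ρ σ) = (X - C α) * (X - C β))
    (L : IntermediateField ℚ Qb) (hL : FiniteDimensional ℚ L) :
    ∃ (q : ℕ) (A : ValuationSubring Qb) (τ : GQ) (j : ℕ),
      IsGoodPrime ρbar p n S q ∧ q ∉ T ∧ A.LiesOverPrime q ∧ A.IsFrobeniusAt τ q ∧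
      IsCycExp p τ 1 ∧ ρbar.ρ (τ ^ j) = ρbar.ρ σ ∧ ∀ x ∈ L, (τ ^ j) x = σ x := by
  obtain ⟨Lρ, hLρ, hρ⟩ := rho_eq_of_agree ρbar
  haveI := hLρ
  haveI := hL
  haveI : NeZero (p ^ (n + 1)) := ⟨pow_ne_zero _ hp.ne_zero⟩
  obtain ⟨ℓ, A, τ, i, j, hℓ, hℓS, hA, hτ, hin, hi, hj⟩ :=
    hFD (Lρ ⊔ L ⊔ Fermat.Agent.S55.H414.cycloLevel (p ^ (n + 1))) inferInstance σ
      (T ∪ S ∪ {p})
  have hLρE : Lρ ≤ Lρ ⊔ L ⊔ Fermat.Agent.S55.H414.cycloLevel (p ^ (n + 1)) :=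
    le_sup_left.trans le_sup_left
  have hLE : L ≤ Lρ ⊔ L ⊔ Fermat.Agent.S55.H414.cycloLevel (p ^ (n + 1)) :=
    le_sup_right.trans le_sup_left
  have hcE : Fermat.Agent.S55.H414.cycloLevel (p ^ (n + 1)) ≤
      Lρ ⊔ L ⊔ Fermat.Agent.S55.H414.cycloLevel (p ^ (n + 1)) := le_sup_right
  have hℓT : ℓ ∉ T := fun h => hℓS (by simp [h])
  have hℓS' : ℓ ∉ S := fun h => hℓS (by simp [h])
  have hℓp : ℓ ≠ p := fun h => hℓS (by simp [h])
  -- `τ` fixes `μ_{p^{n+1}}`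
  have hτfix : ∀ μ : Qb, μ ^ p ^ (n + 1) = 1 → τ μ = μ := by
    intro μ hμ
    rw [hi μ (hcE (mem_cycloLevel_of_pow_eq_one _ hμ))]
    exact pow_apply_eq_of_apply_eq σ (hσfix μ hμ) i
  have hdvd : p ^ (n + 1) ∣ ℓ - 1 :=
    pow_dvd_sub_one_of_frobenius_fixes hp hℓ hℓp hA hτ (n + 1) hτfix
  have hτ1 : IsCycExp p τ 1 :=
    isCycExp_one_of_fixes p τ fun μ hμ => hτfix μ (pow_pow_succ_eq_one_of_pow_eq_one n hμ)
  -- `ρ̄ τ` and `ρ̄ σ` are powers of each other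
  have hρτ : ρbar.ρ τ = ρbar.ρ σ ^ i := by
    rw [← map_pow]
    exact hρ _ _ fun x hx => hi x (hLρE hx)
  have hρσ : ρbar.ρ (τ ^ j) = ρbar.ρ σ := hρ _ _ fun x hx => hj x (hLρE hx)
  have hρσ' : ρbar.ρ σ = ρbar.ρ τ ^ j := by rw [← map_pow, hρσ]
  -- distinct eigenvalues
  obtain ⟨α, β, hαβ, hcσ⟩ := hσ
  obtain ⟨α', β', hcτ⟩ := hsplit τ
  have hαβ' : α' ≠ β' := distinct_of_pow (ρbar.ρ τ) (ρbar.ρ σ) i j hρτ hρσ' hαβ hcσ hcτ
  -- unramified at `ℓ`
  have hur : ρbar.IsUnramifiedAt ℓ := by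
    intro A' hA'
    refine Fermat.Agent.Lib.Cheb.H476.map_inertia_eq_one_of_liesOver ρbar.ρ hℓ hA hA' ?_
    intro ι hι
    have := hρ ι 1 fun x hx => by
      rw [hin ι hι x (hLρE hx)]
      rfl
    rwa [map_one] at this
  refine ⟨ℓ, A, τ, j, ⟨⟨hℓ, hℓS', hdvd⟩, fun P hP φ hφ => ⟨α', β', hαβ', ?_⟩⟩, hℓT, hA, hτ, hτ1,
    hρσ, fun x hx => hj x (hLE hx)⟩
  rw [Fermat.Agent.Lib.Cheb.H476.charpoly_eq_of_isFrobeniusAt ρbar hℓ hur hA hP hτ hφ, hcτ]

/-- **TWP3.**  One Taylor–Wiles prime detecting a cocycle which is not a coboundary. -/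
theorem exists_good_prime_of_cocycle (hEl : TWElementStatement)
    (hFD : Fermat.Agent.Lib.Cheb.Spec.FrobeniusDivisionStatement)
    (𝒪 : Type) [CommRing 𝒪] [IsDomain 𝒪] [IsDiscreteValuationRing 𝒪]
    [IsAdicComplete (maximalIdeal 𝒪) 𝒪] [Finite (ResidueField 𝒪)]
    (p : ℕ) (ρbar : ResidualGaloisRep (ResidueField 𝒪)) (S Smin : Finset ℕ)
    (hyp : Hyp 𝒪 p ρbar S Smin) {c : GQ → Module.End (ResidueField 𝒪) ρbar.V}
    (hc : IsTwCocycle ρbar p c) (hncob : ¬ IsTwCoboundary ρbar p c) (n : ℕ) (T : Finset ℕ) :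
    ∃ (q : ℕ) (A : ValuationSubring Qb) (τ : GQ),
      IsGoodPrime ρbar p n S q ∧ q ∉ T ∧ A.LiesOverPrime q ∧ A.IsFrobeniusAt τ q ∧
      IsCycExp p τ 1 ∧
      ∀ m : Module.End (ResidueField 𝒪) ρbar.V,
        LinearMap.trace (ResidueField 𝒪) ρbar.V m = 0 → c τ ≠ ρbar.ρ τ * m * ρbar.ρ τ⁻¹ - m := by
  obtain ⟨σ, hσfix, hσ, hcσ⟩ := (hEl 𝒪 p ρbar S Smin hyp).1 c hc hncob n
  obtain ⟨Lc, hLc, hcL⟩ := cocycle_eq_of_agree hc
  have hsplit : ∀ σ : GQ, ∃ α β : ResidueField 𝒪,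
      LinearMap.charpoly (ρbar.ρ σ) = (X - C α) * (X - C β) := hyp.hsplit
  obtain ⟨q, A, τ, j, hgood, hqT, hA, hτ, hτ1, hρσ, hj⟩ :=
    exists_good_prime_of_element hFD hyp.hp hsplit S n T σ hσfix hσ Lc hLc
  refine ⟨q, A, τ, hgood, hqT, hA, hτ, hτ1, fun m hm hcτ => hcσ m hm ?_⟩
  have h1 := coboundary_pow hc τ hτ1 m hcτ j
  have h2 : c σ = c (τ ^ j) := hcL _ _ fun x hx => (hj x hx).symm
  have h3 : ρbar.ρ (τ ^ j)⁻¹ = ρbar.ρ σ⁻¹ := by
    calc ρbar.ρ (τ ^ j)⁻¹ = ρbar.ρ (τ ^ j)⁻¹ * (ρbar.ρ σ * ρbar.ρ σ⁻¹) := by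
          rw [rho_mul_rho_inv, mul_one]
      _ = (ρbar.ρ (τ ^ j)⁻¹ * ρbar.ρ (τ ^ j)) * ρbar.ρ σ⁻¹ := by rw [hρσ, mul_assoc]
      _ = ρbar.ρ σ⁻¹ := by rw [rho_inv_mul_rho, one_mul]
  rw [h2, h1, hρσ, h3]

/-- A good prime outside `T` (no cocycle). -/
theorem exists_good_prime (hEl : TWElementStatement)
    (hFD : Fermat.Agent.Lib.Cheb.Spec.FrobeniusDivisionStatement)
    (𝒪 : Type) [CommRing 𝒪] [IsDomain 𝒪] [IsDiscreteValuationRing 𝒪]
    [IsAdicComplete (maximalIdeal 𝒪) 𝒪] [Finite (ResidueField 𝒪)]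
    (p : ℕ) (ρbar : ResidualGaloisRep (ResidueField 𝒪)) (S Smin : Finset ℕ)
    (hyp : Hyp 𝒪 p ρbar S Smin) (n : ℕ) (T : Finset ℕ) :
    ∃ q : ℕ, IsGoodPrime ρbar p n S q ∧ q ∉ T := by
  obtain ⟨σ, hσfix, hσ⟩ := (hEl 𝒪 p ρbar S Smin hyp).2 n
  have hsplit : ∀ σ : GQ, ∃ α β : ResidueField 𝒪,
      LinearMap.charpoly (ρbar.ρ σ) = (X - C α) * (X - C β) := hyp.hsplit
  obtain ⟨q, A, τ, j, hgood, hqT, -⟩ :=
    exists_good_prime_of_element hFD hyp.hp hsplit S n T σ hσfix hσ ⊥ inferInstance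
  exact ⟨q, hgood, hqT⟩

end Key

end Fermat.Agent.S56.H536
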