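import Fermat.Agent.S56.H536.Key

/-!
# S56 / TWP (helper536): Taylor–Wiles primes from the Taylor–Wiles element

`twPrimesOfElement : TWPrimesOfElementStatement`, i.e.

    TWElementStatement → Lib.Cheb.Spec.FrobeniusDivisionStatement → TWPrimesStatement.

Proof.  Induction on the dimension of a subspace `D' ≤ D` of the dual Selmer frame
(`exists_kills_le`): a nonzero `c ∈ D'` is not a coboundary, so `exists_good_prime_of_cocycle`
gives a good prime `q` with a Frobenius `τ` such that `c τ` is not a coboundary value; the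
subspace `D'' = {c' ∈ D' | c' τ is a coboundary value}` is a proper subspace of `D'`, and by
`coboundary_at_frobenius_of_locTrivAt` it contains every `c' ∈ D'` which is locally trivial at
`q`.  Finally the set of primes is padded to exactly `dim D` primes (`exists_good_primes`).

Only `Mathlib`, the Prelude, the frozen `S56/Spec`, and two Prelude-level helper files
(`Lib/Cheb/H476/FrobConj`, `S55/H414/CycloPow`) are imported: the two inputs are hypotheses.
-/

set_option autoImplicit false
set_option linter.style.haveILetI false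

open Polynomial IsLocalRing

noncomputable section

namespace Fermat.Agent.S56.H536

open Fermat.Agent.S56

section

variable {k : Type} [Field k] (ρbar : ResidualGaloisRep k)

/-- The `k`-linear map `m ↦ ρ̄(τ) m ρ̄(τ)⁻¹ - m` on `End V`. -/
def adSub (τ : GQ) : Module.End k ρbar.V →ₗ[k] Module.End k ρbar.V where
  toFun m := ρbar.ρ τ * m * ρbar.ρ τ⁻¹ - m
  map_add' x y := by
    simp only [mul_add, add_mul]
    abel
  map_smul' a x := by
    simp only [RingHom.id_apply, mul_smul_comm, smul_mul_assoc, smul_sub]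

/-- The space of coboundary values at `τ`: the image of the trace-zero endomorphisms under
`adSub τ`. -/
def cobValues (τ : GQ) : Submodule k (Module.End k ρbar.V) :=
  Submodule.map (adSub ρbar τ) (LinearMap.ker (LinearMap.trace k ρbar.V))

theorem mem_cobValues_iff (τ : GQ) (x : Module.End k ρbar.V) :
    x ∈ cobValues ρbar τ ↔
      ∃ m : Module.End k ρbar.V, LinearMap.trace k ρbar.V m = 0 ∧
        x = ρbar.ρ τ * m * ρbar.ρ τ⁻¹ - m := by
  constructor
  · rintro ⟨m, hm, rfl⟩
    exact ⟨m, LinearMap.mem_ker.mp hm, rfl⟩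
  · rintro ⟨m, hm, rfl⟩
    exact ⟨m, LinearMap.mem_ker.mpr hm, rfl⟩

/-- The cocycles of `D'` whose value at `τ` is a coboundary value. -/
def cutAt (D' : Submodule k (GQ → Module.End k ρbar.V)) (τ : GQ) :
    Submodule k (GQ → Module.End k ρbar.V) :=
  D' ⊓ Submodule.comap
    (LinearMap.proj (R := k) (φ := fun _ : GQ => Module.End k ρbar.V) τ) (cobValues ρbar τ)

theorem mem_cutAt_iff (D' : Submodule k (GQ → Module.End k ρbar.V)) (τ : GQ)
    (c : GQ → Module.End k ρbar.V) :
    c ∈ cutAt ρbar D' τ ↔ c ∈ D' ∧ c τ ∈ cobValues ρbar τ := Iff.rfl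

end

section Main

variable (hEl : TWElementStatement)
  (hFD : Fermat.Agent.Lib.Cheb.Spec.FrobeniusDivisionStatement)
  (𝒪 : Type) [CommRing 𝒪] [IsDomain 𝒪] [IsDiscreteValuationRing 𝒪]
  [IsAdicComplete (maximalIdeal 𝒪) 𝒪] [Finite (ResidueField 𝒪)]
  (p : ℕ) (ρbar : ResidualGaloisRep (ResidueField 𝒪)) (S Smin : Finset ℕ)

include hEl hFD in
/-- **TWP4, induction.**  Every subspace `D'` of a dual Selmer frame of dimension `≤ d` is killed
by a set of at most `d` good primes outside any given finite set `T`. -/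
theorem exists_kills_le (hyp : Hyp 𝒪 p ρbar S Smin)
    (D : Submodule (ResidueField 𝒪) (GQ → Module.End (ResidueField 𝒪) ρbar.V))
    (hD : IsDualFrame ρbar p D) (n : ℕ) :
    ∀ (d : ℕ) (D' : Submodule (ResidueField 𝒪) (GQ → Module.End (ResidueField 𝒪) ρbar.V)),
      D' ≤ D → Module.finrank (ResidueField 𝒪) D' ≤ d → ∀ T : Finset ℕ,
      ∃ Q : Finset ℕ, Q.card ≤ d ∧ (∀ q ∈ Q, IsGoodPrime ρbar p n S q ∧ q ∉ T) ∧
        ∀ c ∈ D', (∀ q ∈ Q, LocTrivAt ρbar p q c) → c = 0 := by
  haveI : CharP (ResidueField 𝒪) p := charP_residueField 𝒪 p hyp.hp hyp.hp𝒪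
  haveI : Module.Finite (ResidueField 𝒪) D := hD.finite
  intro d
  induction d with
  | zero =>
    intro D' hle hfr T
    haveI : FiniteDimensional (ResidueField 𝒪) D' := Submodule.finiteDimensional_of_le hle
    have hbot : D' = ⊥ := Submodule.finrank_eq_zero.mp (Nat.le_zero.mp hfr)
    refine ⟨∅, by simp, by simp, fun c hc _ => ?_⟩
    rw [hbot] at hc
    exact (Submodule.mem_bot _).mp hc
  | succ d ih =>
    intro D' hle hfr T
    haveI : FiniteDimensional (ResidueField 𝒪) D' := Submodule.finiteDimensional_of_le hle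
    by_cases hbot : D' = ⊥
    · refine ⟨∅, by simp, by simp, fun c hc _ => ?_⟩
      rw [hbot] at hc
      exact (Submodule.mem_bot _).mp hc
    · obtain ⟨c, hcD', hc0⟩ := Submodule.exists_mem_ne_zero_of_ne_bot hbot
      have hc : IsTwCocycle ρbar p c := hD.isTwCocycle c (hle hcD')
      have hncob : ¬ IsTwCoboundary ρbar p c := fun h => hc0 (hD.inj c (hle hcD') h)
      obtain ⟨q, A, τ, hgood, hqT, hA, hτ, hτ1, hcτ⟩ :=
        exists_good_prime_of_cocycle hEl hFD 𝒪 p ρbar S Smin hyp hc hncob n T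
      -- the smaller subspace
      have hlt : cutAt ρbar D' τ < D' := by
        refine lt_of_le_of_ne inf_le_left fun heq => ?_
        have hmem : c ∈ cutAt ρbar D' τ := by rw [heq]; exact hcD'
        obtain ⟨m, hm, hcm⟩ := (mem_cobValues_iff ρbar τ (c τ)).mp
          ((mem_cutAt_iff ρbar D' τ c).mp hmem).2
        exact hcτ m hm hcm
      have hfr' : Module.finrank (ResidueField 𝒪) (cutAt ρbar D' τ) ≤ d := by
        have := Submodule.finrank_lt_finrank_of_lt hlt
        omega
      obtain ⟨Q, hQcard, hQgood, hQkill⟩ :=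
        ih (cutAt ρbar D' τ) (hlt.le.trans hle) hfr' (insert q T)
      refine ⟨insert q Q, (Finset.card_insert_le q Q).trans (Nat.succ_le_succ hQcard), ?_, ?_⟩
      · intro q' hq'
        rcases Finset.mem_insert.mp hq' with rfl | hq'
        · exact ⟨hgood, hqT⟩
        · exact ⟨(hQgood q' hq').1, fun h => (hQgood q' hq').2 (Finset.mem_insert_of_mem h)⟩
      · intro c' hc'D' hloc
        have hc' : IsTwCocycle ρbar p c' := hD.isTwCocycle c' (hle hc'D')
        apply hQkill c'
        · refine (mem_cutAt_iff ρbar D' τ c').mpr ⟨hc'D', ?_⟩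
          rw [mem_cobValues_iff]
          exact coboundary_at_frobenius_of_locTrivAt hyp.hp hc' hgood.1.1
            (hloc q (Finset.mem_insert_self q Q)) hA hτ hτ1
        · intro q' hq'
          exact hloc q' (Finset.mem_insert_of_mem hq')

include hEl hFD in
/-- **TWP4, padding.**  There are `j` distinct good primes outside any finite set `T`. -/
theorem exists_good_primes (hyp : Hyp 𝒪 p ρbar S Smin) (n : ℕ) :
    ∀ (j : ℕ) (T : Finset ℕ),
      ∃ Q : Finset ℕ, Q.card = j ∧ ∀ q ∈ Q, IsGoodPrime ρbar p n S q ∧ q ∉ T := by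
  intro j
  induction j with
  | zero => exact fun T => ⟨∅, by simp, by simp⟩
  | succ j ih =>
    intro T
    obtain ⟨q, hgood, hqT⟩ := exists_good_prime hEl hFD 𝒪 p ρbar S Smin hyp n T
    obtain ⟨Q, hQcard, hQ⟩ := ih (insert q T)
    have hqQ : q ∉ Q := fun h => (hQ q h).2 (Finset.mem_insert_self q T)
    refine ⟨insert q Q, by rw [Finset.card_insert_of_notMem hqQ, hQcard], ?_⟩
    intro q' hq'
    rcases Finset.mem_insert.mp hq' with rfl | hq'
    · exact ⟨hgood, hqT⟩
    · exact ⟨(hQ q' hq').1, fun h => (hQ q' hq').2 (Finset.mem_insert_of_mem h)⟩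

end Main

/-- **TWP.**  Taylor–Wiles primes from the Taylor–Wiles element and Frobenius division. -/
theorem twPrimesOfElement : TWPrimesOfElementStatement := by
  intro hEl hFD 𝒪 _ _ _ _ _ p ρbar S Smin hyp D hD n
  obtain ⟨Q₀, hQ₀card, hQ₀good, hQ₀kill⟩ :=
    exists_kills_le hEl hFD 𝒪 p ρbar S Smin hyp D hD n
      (Module.finrank (ResidueField 𝒪) D) D le_rfl le_rfl ∅
  obtain ⟨Q₁, hQ₁card, hQ₁good⟩ :=
    exists_good_primes hEl hFD 𝒪 p ρbar S Smin hyp n
      (Module.finrank (ResidueField 𝒪) D - Q₀.card) Q₀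
  have hdisj : Disjoint Q₀ Q₁ := by
    rw [Finset.disjoint_left]
    intro q hq₀ hq₁
    exact (hQ₁good q hq₁).2 hq₀
  have hcard : (Q₀ ∪ Q₁).card = Module.finrank (ResidueField 𝒪) D := by
    rw [Finset.card_union_of_disjoint hdisj, hQ₁card]
    omega
  have hgood : ∀ q ∈ Q₀ ∪ Q₁, IsGoodPrime ρbar p n S q := by
    intro q hq
    rcases Finset.mem_union.mp hq with h | h
    · exact (hQ₀good q h).1
    · exact (hQ₁good q h).1
  refine ⟨(Q₀ ∪ Q₁).orderEmbOfFin hcard, ((Q₀ ∪ Q₁).orderEmbOfFin hcard).injective,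
    fun i => (hgood _ (Finset.orderEmbOfFin_mem _ hcard i)).1,
    fun i => (hgood _ (Finset.orderEmbOfFin_mem _ hcard i)).2, ?_⟩
  intro c hc hloc
  apply hQ₀kill c hc
  intro q hq
  apply hloc
  rw [Finset.image_orderEmbOfFin_univ]
  exact Finset.mem_union_left _ hq

end Fermat.Agent.S56.H536
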